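/-
T1 (wave 2), brick A3 GLUE: interface-free generic lemmas for helper44 (helper8).  Mathlib only.
-/
import Mathlib

set_option autoImplicit false
set_option linter.style.haveILetI false

namespace Fermat.Agent.T1.Glue8.LinAlg

open scoped TensorProduct

/-- (GL1a) Linear independence of functions is preserved by a field embedding. -/
theorem linearIndependent_comp_ringHom {E K : Type} [Field E] [Field K] (f : E →+* K)
    {X J : Type} [Finite X] (v : J → X → E) (hv : LinearIndependent E v) :
    LinearIndependent K (fun j => (fun x => f (v j x))) := by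
  classical
  letI : Algebra E K := f.toAlgebra
  have := Fintype.ofFinite X
  have h1 : LinearIndependent K (fun j => (1 : K) ⊗ₜ[E] v j) :=
    Module.Flat.linearIndependent_one_tmul hv
  have h2 := h1.map' (TensorProduct.piScalarRight E K K X).toLinearMap
    (LinearMap.ker_eq_bot.2 (TensorProduct.piScalarRight E K K X).injective)
  have heq : (fun j => (fun x => f (v j x))) =
      (⇑(TensorProduct.piScalarRight E K K X).toLinearMap ∘ fun j => (1 : K) ⊗ₜ[E] v j) := by
    funext j
    funext x
    simp only [Function.comp_apply, LinearEquiv.coe_coe, TensorProduct.piScalarRight_apply,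
      TensorProduct.piScalarRightHom_tmul]
    rw [Algebra.smul_def, mul_one]
    rfl
  rw [heq]
  exact h2

/-- (GL1b) Spanning families of functions stay spanning after a field embedding. -/
theorem span_comp_ringHom_eq_top {E K : Type} [Field E] [Field K] (f : E →+* K)
    {X J : Type} [Finite X] (v : J → X → E) (hv : Submodule.span E (Set.range v) = ⊤) :
    Submodule.span K (Set.range (fun j => (fun x => f (v j x)))) = ⊤ := by
  classical
  have := Fintype.ofFinite X
  set S : Submodule K (X → K) := Submodule.span K (Set.range (fun j => (fun x => f (v j x))))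
    with hS
  -- the image of every `g : X → E` lies in `S`
  have key : ∀ g : X → E, g ∈ Submodule.span E (Set.range v) → (fun x => f (g x)) ∈ S := by
    intro g hg
    induction hg using Submodule.span_induction with
    | mem g hg =>
      obtain ⟨j, rfl⟩ := hg
      exact Submodule.subset_span ⟨j, rfl⟩
    | zero =>
      have : (fun x => f ((0 : X → E) x)) = (0 : X → K) := by
        funext x
        simp
      rw [this]
      exact S.zero_mem
    | add g h _ _ hg hh =>
      have : (fun x => f ((g + h) x)) = (fun x => f (g x)) + (fun x => f (h x)) := by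
        funext x
        simp
      rw [this]
      exact S.add_mem hg hh
    | smul c g _ hg =>
      have : (fun x => f ((c • g) x)) = f c • (fun x => f (g x)) := by
        funext x
        simp
      rw [this]
      exact S.smul_mem _ hg
  rw [eq_top_iff]
  intro h _
  have hh : h = ∑ x, h x • (fun y => f ((Pi.single x (1 : E) : X → E) y)) := by
    funext y
    rw [Finset.sum_apply]
    simp only [Pi.smul_apply, smul_eq_mul]
    rw [Finset.sum_eq_single y]
    · simp
    · intro x _ hxy
      rw [Pi.single_eq_of_ne (Ne.symm hxy), map_zero, mul_zero]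
    · intro hy
      exact absurd (Finset.mem_univ y) hy
  rw [hh]
  refine S.sum_mem fun x _ => S.smul_mem _ (key _ ?_)
  rw [hv]
  exact Submodule.mem_top

/-- (GL2) A subalgebra of functions on a finite set separating points spans all functions. -/
theorem span_eq_top_of_separates {R K : Type} [CommRing R] [Field K] [Algebra R K] {X : Type}
    [Finite X] (B : Subalgebra R (X → K))
    (hsep : ∀ x y : X, (∀ b ∈ B, b x = b y) → x = y) :
    Submodule.span K (B : Set (X → K)) = ⊤ := by
  classical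
  have := Fintype.ofFinite X
  set A : Subalgebra K (X → K) := Algebra.adjoin K (B : Set (X → K)) with hA
  have hAspan : Subalgebra.toSubmodule A = Submodule.span K (B : Set (X → K)) := by
    rw [hA, Algebra.adjoin_eq_span]
    congr 1
    have : (B : Set (X → K)) = ((B.toSubsemiring.toSubmonoid : Submonoid (X → K)) : Set (X → K)) :=
      rfl
    rw [this, Submonoid.closure_eq]
  have hBA : ∀ b ∈ B, b ∈ A := fun b hb => Algebra.subset_adjoin hb
  -- indicator functions
  have hsingle : ∀ x : X, (Pi.single x (1 : K) : X → K) ∈ A := by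
    intro x
    have hex : ∀ y : X, y ≠ x → ∃ b ∈ B, b x ≠ b y := by
      intro y hy
      by_contra hcon
      push Not at hcon
      exact hy (hsep x y hcon).symm
    choose! b hbB hb using hex
    have hP : (Pi.single x (1 : K) : X → K) =
        ∏ y ∈ Finset.univ.erase x, ((b y x - b y y)⁻¹ • (b y - algebraMap K (X → K) (b y y))) := by
      funext z
      rw [Finset.prod_apply]
      by_cases hz : z = x
      · subst hz
        rw [Pi.single_eq_same]
        symm
        apply Finset.prod_eq_one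
        intro y hy
        have hyz : y ≠ z := Finset.ne_of_mem_erase hy
        simp only [Pi.smul_apply, Pi.sub_apply, smul_eq_mul, Pi.algebraMap_apply,
          Algebra.algebraMap_self, RingHom.id_apply]
        exact inv_mul_cancel₀ (sub_ne_zero.2 (hb y hyz))
      · rw [Pi.single_eq_of_ne hz]
        symm
        apply Finset.prod_eq_zero (Finset.mem_erase.2 ⟨hz, Finset.mem_univ z⟩)
        simp
    rw [hP]
    refine Subalgebra.prod_mem _ fun y hy => ?_
    have hyx : y ≠ x := Finset.ne_of_mem_erase hy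
    exact A.smul_mem (A.sub_mem (hBA _ (hbB y hyx)) (A.algebraMap_mem _)) _
  have htop : A = ⊤ := by
    rw [eq_top_iff]
    intro h _
    have hh : h = ∑ x, h x • (Pi.single x (1 : K) : X → K) := by
      funext y
      rw [Finset.sum_apply]
      simp only [Pi.smul_apply, smul_eq_mul]
      rw [Finset.sum_eq_single y]
      · simp
      · intro x _ hxy
        rw [Pi.single_eq_of_ne (Ne.symm hxy), mul_zero]
      · intro hy
        exact absurd (Finset.mem_univ y) hy
    rw [hh]
    exact A.sum_mem fun x _ => A.smul_mem (hsingle x) _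
  rw [← hAspan, htop]
  rfl

/-- (GL3) Rational approximation in `ℚ_p`. -/
theorem exists_rat_approx (p : ℕ) [Fact p.Prime] (c : ℚ_[p]) (n : ℕ) :
    ∃ q : ℚ, ‖c - (q : ℚ_[p])‖ ≤ ‖(p : ℚ_[p])‖ ^ n := by
  have hp0 : (p : ℚ_[p]) ≠ 0 := by
    exact_mod_cast (Fact.out : p.Prime).ne_zero
  have hpos : 0 < ‖(p : ℚ_[p])‖ ^ n := pow_pos (norm_pos_iff.2 hp0) n
  obtain ⟨q, hq⟩ := Padic.rat_dense p c hpos
  exact ⟨q, hq.le⟩

/-- (GL4) A rational number is a `p`-adic integer iff its denominator is prime to `p`. -/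
theorem norm_ratCast_le_one_iff (p : ℕ) [hp : Fact p.Prime] (q : ℚ) :
    ‖(q : ℚ_[p])‖ ≤ 1 ↔ q.den.Coprime p := by
  constructor
  · intro h
    rw [Nat.coprime_comm, Nat.Prime.coprime_iff_not_dvd hp.out]
    intro hdvd
    -- `q * den = num`
    have h1 : (q : ℚ_[p]) * ((q.den : ℤ) : ℚ_[p]) = ((q.num : ℤ) : ℚ_[p]) := by
      have := Rat.mul_den_eq_num q
      have h2 : ((q * (q.den : ℚ) : ℚ) : ℚ_[p]) = ((q.num : ℚ) : ℚ_[p]) := by rw [this]
      push_cast at h2 ⊢
      exact h2
    have hden : ‖((q.den : ℤ) : ℚ_[p])‖ < 1 :=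
      Padic.norm_intCast_lt_one_iff.2 (by exact_mod_cast hdvd)
    have hnum : ‖((q.num : ℤ) : ℚ_[p])‖ = 1 := by
      refine le_antisymm (Padic.norm_int_le_one _) (not_lt.1 fun hlt => ?_)
      have hpn : (p : ℤ) ∣ q.num := Padic.norm_intCast_lt_one_iff.1 hlt
      have hcop := q.reduced
      have h3 : p ∣ q.num.natAbs := Int.natCast_dvd.1 hpn
      have h4 : p ∣ Nat.gcd q.num.natAbs q.den := Nat.dvd_gcd h3 hdvd
      rw [hcop] at h4
      exact hp.out.one_lt.ne' (Nat.dvd_one.1 h4)
    have h5 : ‖(q : ℚ_[p])‖ * ‖((q.den : ℤ) : ℚ_[p])‖ = 1 := by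
      rw [← norm_mul, h1, hnum]
    have hq0 : 0 ≤ ‖(q : ℚ_[p])‖ := norm_nonneg _
    have hd0 : 0 ≤ ‖((q.den : ℤ) : ℚ_[p])‖ := norm_nonneg _
    nlinarith
  · intro h
    apply Padic.norm_rat_le_one
    rw [Nat.coprime_comm, Nat.Prime.coprime_iff_not_dvd hp.out] at h
    exact h

/-- (GL5) Clearing denominators of finitely many `p`-adic numbers. -/
theorem exists_pow_mul_norm_le_one (p : ℕ) [hp : Fact p.Prime] {I : Type} (s : Finset I)
    (c : I → ℚ_[p]) : ∃ a : ℕ, ∀ i ∈ s, ‖(p : ℚ_[p]) ^ a * c i‖ ≤ 1 := by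
  classical
  have hp1 : (1 : ℝ) < p := by exact_mod_cast hp.out.one_lt
  have hp0 : (0 : ℝ) < p := by linarith
  have hnorm : ‖(p : ℚ_[p])‖ = (p : ℝ)⁻¹ := Padic.norm_p
  have hone : ∀ x : ℚ_[p], ∃ a : ℕ, ∀ a' : ℕ, a ≤ a' → ‖(p : ℚ_[p]) ^ a' * x‖ ≤ 1 := by
    intro x
    obtain ⟨a, ha⟩ := pow_unbounded_of_one_lt ‖x‖ hp1
    refine ⟨a, fun a' haa' => ?_⟩
    rw [norm_mul, norm_pow, hnorm, inv_pow]
    have h1 : (p : ℝ) ^ a ≤ (p : ℝ) ^ a' := pow_le_pow_right₀ hp1.le haa'
    have h2 : 0 < (p : ℝ) ^ a' := pow_pos hp0 a'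
    rw [inv_mul_le_iff₀ h2, mul_one]
    linarith
  induction s using Finset.induction_on with
  | empty => exact ⟨0, fun i hi => absurd hi (Finset.notMem_empty i)⟩
  | insert j s hj ih =>
    obtain ⟨a, ha⟩ := ih
    obtain ⟨b, hb⟩ := hone (c j)
    refine ⟨a + b, fun i hi => ?_⟩
    rcases Finset.mem_insert.1 hi with rfl | his
    · exact hb _ (Nat.le_add_left _ _)
    · have h1 := ha i his
      rw [pow_add, mul_assoc, mul_comm ((p : ℚ_[p]) ^ b), ← mul_assoc, norm_mul]
      have h2 : ‖(p : ℚ_[p]) ^ b‖ ≤ 1 := by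
        rw [norm_pow, hnorm, inv_pow]
        exact inv_le_one_of_one_le₀ (one_le_pow₀ hp1.le)
      calc ‖(p : ℚ_[p]) ^ a * c i‖ * ‖(p : ℚ_[p]) ^ b‖ ≤ 1 * 1 :=
            mul_le_mul h1 h2 (norm_nonneg _) zero_le_one
        _ = 1 := one_mul 1

/-- (GL6) Small `p`-adic numbers are `p^n` times a `p`-adic integer. -/
theorem exists_padicInt_of_norm_le_pow (p : ℕ) [hp : Fact p.Prime] (c : ℚ_[p]) (n : ℕ)
    (h : ‖c‖ ≤ ‖(p : ℚ_[p])‖ ^ n) : ∃ z : ℤ_[p], c = (p : ℚ_[p]) ^ n * (z : ℚ_[p]) := by
  have hp0 : (p : ℚ_[p]) ≠ 0 := by exact_mod_cast hp.out.ne_zero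
  have hpn0 : (p : ℚ_[p]) ^ n ≠ 0 := pow_ne_zero n hp0
  have hpos : 0 < ‖(p : ℚ_[p]) ^ n‖ := norm_pos_iff.2 hpn0
  have hz : ‖c / (p : ℚ_[p]) ^ n‖ ≤ 1 := by
    rw [norm_div, div_le_one hpos, norm_pow]
    exact h
  refine ⟨⟨c / (p : ℚ_[p]) ^ n, hz⟩, ?_⟩
  show c = (p : ℚ_[p]) ^ n * (c / (p : ℚ_[p]) ^ n)
  field_simp

/-- (GL7) Submodules of a finitely generated submodule over a Noetherian ring are f.g. -/
theorem fg_of_le_of_fg {R N : Type} [CommRing R] [IsNoetherianRing R] [AddCommGroup N]
    [Module R N] (P Q : Submodule R N) (hPQ : P ≤ Q) (hQ : Q.FG) : P.FG := by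
  have hnoeth : IsNoetherian R Q := isNoetherian_of_fg_of_noetherian Q hQ
  have hfg : (P.comap Q.subtype).FG := IsNoetherian.noetherian _
  have hmap : (P.comap Q.subtype).map Q.subtype = P := by
    rw [Submodule.map_comap_eq, Submodule.range_subtype]
    exact inf_eq_right.2 hPQ
  rw [← hmap]
  exact hfg.map _

end Fermat.Agent.T1.Glue8.LinAlg
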